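/-
Programme JAC, S26 track, chapter Final26 (helper66).

The function field extension `K(A) / [n]^# K(A)` of multiplication by `n` on an abelian variety
is finite separable of degree `#A[n](K)` (AV/Isogeny66 + AV/RankCount66 + helper31's FIN1).
-/
import Mathlib
import Fermat.Agent.JAC.AV.RankCount66
import Fermat.Agent.JAC.AV.Integral66
import Fermat.Agent.JAC.Fin.Degree31

set_option autoImplicit false

open CategoryTheory CategoryTheory.Limits AlgebraicGeometry NeronModelInfra GoodReductionJacobian

universe u

namespace Fermat.Agent.JAC.Final26.Degree66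

open Fermat.Agent.JAC.AV.Isogeny66 Fermat.Agent.JAC.AV.NsmulEtale66
  Fermat.Agent.JAC.AV.TorsionCount66 Fermat.Agent.JAC.AV.RankCount66
  Fermat.Agent.JAC.Fin Fermat.Agent.JAC.Div2

variable {K : Type u} [Field K] [IsAlgClosed K] {A : Scheme.{u}}
  {f : A ⟶ Spec (CommRingCat.of K)} (L : RelativeGroupLaw K f) (hc : L.IsCommutative)
  (hA : AbelianSchemePropertyBundle K f) (n : ℕ) (hn : (n : K) ≠ 0)

include hc hA hn

/-- `[n]` is dominant. -/
theorem isDominant_schemeNsmul : IsDominant (L.schemeNsmul n) := by
  haveI := surjective_schemeNsmul L hc hA n hn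
  infer_instance

variable [IsIntegral A] [IsDominant (L.schemeNsmul n)]

/-- `K(A)` is finite over `[n]^# K(A)`. -/
theorem finiteDimensional_schemeNsmul :
    @Module.Finite A.functionField A.functionField _ _
      (Degree31.functionFieldAlgebra (L.schemeNsmul n)).toModule := by
  haveI := isFinite_schemeNsmul L hc hA n hn
  exact Degree31.finiteDimensional_functionField (L.schemeNsmul n)

/-- `[K(A) : [n]^# K(A)] = #A[n](K)`. -/
theorem finrank_schemeNsmul :
    @Module.finrank A.functionField A.functionField _ _
      (Degree31.functionFieldAlgebra (L.schemeNsmul n)).toModule = torsionCard L n := by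
  have := hA.smooth
  haveI := etale_schemeNsmul L hc n hn
  haveI := isFinite_schemeNsmul L hc hA n hn
  exact Degree31.finrank_functionField_eq_of_forall (L.schemeNsmul n)
    (fun y => (torsionCard_eq_finrank L hc hA n hn y).symm)

/-- `K(A) / [n]^# K(A)` is separable. -/
theorem isSeparable_schemeNsmul :
    @Algebra.IsSeparable A.functionField A.functionField _ _
      (Degree31.functionFieldAlgebra (L.schemeNsmul n)) := by
  have := hA.smooth
  haveI := etale_schemeNsmul L hc n hn
  haveI := isFinite_schemeNsmul L hc hA n hn
  exact Degree31.isSeparable_functionField (L.schemeNsmul n)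

end Fermat.Agent.JAC.Final26.Degree66
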