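/-
Programme JAC, S26 track, chapter Final26 (helper66).

**Hypothesis-form main theorem.**  For an abelian variety `A` of dimension `g` over an
algebraically closed field `K`, an effective Cartier divisor `D` with affine complement such that
for every `N` invertible in `K` some positive multiple of `[N]^* D` is linearly equivalent to the
same multiple of `N² D` (theorem of the cube + norm descent), one has `#A[n](K) = n ^ (2 g)`.

Inputs: AV chapter (helper66), FIN1 (helper31), FIN2 + GROW + ARITH (helper63), DIV2 (helper69).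
-/
import Mathlib
import Fermat.Agent.JAC.Final26.Degree66
import Fermat.Agent.JAC.Fin.SandwichScheme63
import Fermat.Agent.JAC.Fin.GrowthScheme63
import Fermat.Agent.JAC.Vol.Arith63
import Fermat.Agent.JAC.Div2.Exists69
import Fermat.Agent.JAC.AV.Neg66

set_option autoImplicit false

open CategoryTheory CategoryTheory.Limits AlgebraicGeometry NeronModelInfra GoodReductionJacobian

universe u

namespace Fermat.Agent.JAC.Final26.Main66

open Fermat.Agent.JAC.AV.Isogeny66 Fermat.Agent.JAC.AV.NsmulEtale66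
  Fermat.Agent.JAC.AV.TorsionCount66 Fermat.Agent.JAC.AV.RankCount66
  Fermat.Agent.JAC.AV.Points66 Fermat.Agent.JAC.AV.Integral66
  Fermat.Agent.JAC.Fin Fermat.Agent.JAC.Div2 Fermat.Agent.JAC.Div2.CaDiv69
  Fermat.Agent.JAC.Final26.Degree66 Fermat.Agent.JAC.Vol

variable {K : Type u} [Field K] [IsAlgClosed K] {A : Scheme.{u}}
  {f : A ⟶ Spec (CommRingCat.of K)} (L : RelativeGroupLaw K f)

/-- There is exactly one `1`-torsion point. -/
theorem torsionCard_one : torsionCard L 1 = 1 := by
  unfold torsionCard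
  have : Unique {x : PtG L K // x ^ 1 = 1} :=
    { default := ⟨1, one_pow 1⟩
      uniq := fun x => Subtype.ext (by have := x.2; rwa [pow_one] at this) }
  exact Nat.card_unique

variable (hc : L.IsCommutative) (hA : AbelianSchemePropertyBundle K f)

include hc hA in
/-- `d (n ^ j) = d n ^ j`. -/
theorem torsionCard_pow (n : ℕ) (hn : (n : K) ≠ 0) (j : ℕ) :
    torsionCard L (n ^ j) = torsionCard L n ^ j := by
  induction j with
  | zero => rw [pow_zero, pow_zero]; exact torsionCard_one L
  | succ j ih =>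
    have hj : ((n ^ j : ℕ) : K) ≠ 0 := by
      rw [Nat.cast_pow]; exact pow_ne_zero j hn
    rw [pow_succ, torsionCard_mul L hc hA (n ^ j) n hj, ih, pow_succ]

include hc hA in
/-- **Main theorem, hypothesis form.** -/
theorem torsionCard_eq_pow_of_cube (g : ℕ) [SmoothOfRelativeDimension g f] [IsIntegral A]
    (D : CaDiv A) (hD : D.IsEffective) (hU : IsAffineOpen D.suppCompl)
    (hcube : ∀ N : ℕ, (N : K) ≠ 0 → ∀ [IsDominant (L.schemeNsmul N)], ∃ e : ℕ, 0 < e ∧
      CaDiv.LinEquiv (e • Pull69.CaDiv.pull (L.schemeNsmul N) D) ((e * N ^ 2) • D))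
    (n : ℕ) (hn : (n : K) ≠ 0) : torsionCard L n = n ^ (2 * g) := by
  have hsm : Smooth f := hA.smooth
  haveI : IsProper f := hA.proper
  haveI := isNoetherian_of_bundle f hA
  haveI : ∀ y : A, IsIntegrallyClosed (A.presheaf.stalk y) :=
    fun y => isIntegrallyClosed_stalk_of_bundle f hA y
  letI algK := algebraOfHom f
  haveI := regularScalars_of_hom f
  have hn0 : 0 < n := by
    rcases Nat.eq_zero_or_pos n with h | h
    · exact absurd (by rw [h]; exact Nat.cast_zero) hn
    · exact h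
  obtain ⟨c, C, hc0, hC0, hgrow⟩ := GrowthScheme63.growth_of_proper_smooth f g D hD hU
  -- finiteness for all k
  have hfin : ∀ k : ℕ, Module.Finite K (CaDiv.LK K (k • D)) := by
    intro k
    rcases Nat.eq_zero_or_pos k with h | h
    · subst h
      haveI := (hgrow 1 le_rfl).1
      exact Module.Finite.of_injective (Submodule.inclusion (CaDiv.LK_nsmul_mono K hD (Nat.zero_le 1)))
        (Submodule.inclusion_injective _)
    · exact (hgrow k h).1
  refine Arith63.eq_pow_of_sandwich (a := fun k => Module.finrank K (CaDiv.LK K (k • D)))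
    (k0 := 1) hc0 hC0 (fun k hk => (hgrow k hk).2.1) (fun k hk => (hgrow k hk).2.2)
    (torsionCard L) hn0 (torsionCard_pow L hc hA n hn) ?_
  intro j
  have hN : ((n ^ j : ℕ) : K) ≠ 0 := by
    rw [Nat.cast_pow]; exact pow_ne_zero j hn
  set N := n ^ j with hNdef
  haveI hdom : IsDominant (L.schemeNsmul N) := isDominant_schemeNsmul L hc hA N hN
  haveI : IsFinite (L.schemeNsmul N) := isFinite_schemeNsmul L hc hA N hN
  obtain ⟨e, he, hlin⟩ := hcube N hN
  obtain ⟨m, hm⟩ := SandwichScheme63.sandwich_finite_of_hom (L.schemeNsmul N) f f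
    (L.schemeNsmul_over N) (finiteDimensional_schemeNsmul L hc hA N hN)
    (isSeparable_schemeNsmul L hc hA N hN) D hD hU hfin
  have hdeg := finrank_schemeNsmul L hc hA N hN
  refine ⟨e, m, m, he, fun k hk => ?_⟩
  have hek : m ≤ e * k := le_trans hk (Nat.le_mul_of_pos_left k he)
  obtain ⟨-, h1, h2⟩ := hm (e * k) hek
  -- the cube relation
  have hlin' : CaDiv.LinEquiv ((e * k) • Pull69.CaDiv.pull (L.schemeNsmul N) D)
      ((e * N ^ 2 * k) • D) := by
    have := hlin.nsmul k
    rwa [smul_smul, smul_smul, mul_comm k e, mul_comm k (e * N ^ 2)] at this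
  have hb : Module.finrank K (CaDiv.LK K ((e * k) • Pull69.CaDiv.pull (L.schemeNsmul N) D)) =
      Module.finrank K (CaDiv.LK K ((e * N ^ 2 * k) • D)) := hlin'.finrank_LK_eq
  rw [hb] at h1 h2
  rw [hdeg] at h1 h2
  exact ⟨h1, h2⟩

end Fermat.Agent.JAC.Final26.Main66

namespace Fermat.Agent.JAC.Final26.Main66

open Fermat.Agent.JAC.AV.Isogeny66 Fermat.Agent.JAC.AV.NsmulEtale66
  Fermat.Agent.JAC.AV.TorsionCount66 Fermat.Agent.JAC.AV.RankCount66
  Fermat.Agent.JAC.AV.Points66 Fermat.Agent.JAC.AV.Integral66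
  Fermat.Agent.JAC.Fin Fermat.Agent.JAC.Div2 Fermat.Agent.JAC.Div2.CaDiv69
  Fermat.Agent.JAC.Final26.Degree66 Fermat.Agent.JAC.Vol

variable {K : Type u} [Field K] [IsAlgClosed K] {A : Scheme.{u}}
  {f : A ⟶ Spec (CommRingCat.of K)} (L : RelativeGroupLaw K f)
  (hc : L.IsCommutative) (hA : AbelianSchemePropertyBundle K f)

include hc hA in
/-- **Main theorem, symmetric hypothesis form**: it suffices to know the relation
`e [N]^* D ~ e N² D` for effective *symmetric* divisors `D`. -/
theorem torsionCard_eq_pow_of_cube_symm (g : ℕ) [SmoothOfRelativeDimension g f] [IsIntegral A]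
    (hcube : ∀ D : CaDiv A, D.IsEffective →
      Pull69.CaDiv.pull (Fermat.Agent.JAC.AV.Neg66.neg L) D = D →
      ∀ N : ℕ, (N : K) ≠ 0 → ∀ [IsDominant (L.schemeNsmul N)], ∃ e : ℕ, 0 < e ∧
      CaDiv.LinEquiv (e • Pull69.CaDiv.pull (L.schemeNsmul N) D) ((e * N ^ 2) • D))
    (n : ℕ) (hn : (n : K) ≠ 0) : torsionCard L n = n ^ (2 * g) := by
  haveI : IsProper f := hA.proper
  haveI := isNoetherian_of_bundle f hA
  -- a nonempty affine open
  obtain ⟨x₀⟩ : Nonempty A := inferInstance
  obtain ⟨_, ⟨U, hU, rfl⟩, hxU, -⟩ :=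
    A.isBasis_affineOpens.exists_subset_of_mem_open (Set.mem_univ x₀) isOpen_univ
  haveI : Nonempty U := ⟨⟨x₀, hxU⟩⟩
  obtain ⟨D₀, hD₀, -, hU₀, -⟩ := Exists69.exists_effective_affine_compl
    (fun x => ufm_stalk_of_bundle f hA x) U hU
  exact torsionCard_eq_pow_of_cube L hc hA g (Fermat.Agent.JAC.AV.Neg66.symm L D₀)
    (Fermat.Agent.JAC.AV.Neg66.isEffective_symm L hD₀)
    (Fermat.Agent.JAC.AV.Neg66.isAffineOpen_suppCompl_symm L hD₀ hU₀)
    (hcube _ (Fermat.Agent.JAC.AV.Neg66.isEffective_symm L hD₀)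
      (Fermat.Agent.JAC.AV.Neg66.pull_neg_symm L D₀)) n hn

end Fermat.Agent.JAC.Final26.Main66
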