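/-
Programme JAC, S26 track, chapter Final26 (helper66).

The norm step in class-group language: if `σ : W ⟶ A` is dominant and universally closed onto a
normal integral scheme and `σ^* [E] = 0` in `Cl W`, then `[K(W):K(A)] • E ~ 0` on `A`
(helper50's NORM + helper1's Cl).  Consequence: the cube relation `e [N]^* D ~ e N² D` on `A`
from the quadraticity `(σ ≫ [N])^* [D] = N² σ^* [D]` on `W`.
-/
import Mathlib
import Fermat.Agent.JAC.Norm.Descent50
import Fermat.Agent.JAC.Div2.Cl1
import Fermat.Agent.JAC.Fin.Degree31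

set_option autoImplicit false

open CategoryTheory CategoryTheory.Limits AlgebraicGeometry

universe u

namespace Fermat.Agent.JAC.Final26.NormStep66

open Fermat.Agent.JAC.Div2 Fermat.Agent.JAC.Div2.CaDiv69 Fermat.Agent.JAC.Div2.Stalk69
  Fermat.Agent.JAC.Div2.Cl1 Fermat.Agent.JAC.Norm Fermat.Agent.JAC.Fin

variable {W A : Scheme.{u}} [IsIntegral W] [IsIntegral A] (σ : W ⟶ A)

/-- **Norm step.** -/
theorem linEquiv_zero_of_map_eq_zero [IsDominant σ] [UniversallyClosed σ]
    [∀ x : A, IsIntegrallyClosed (A.presheaf.stalk x)] (E : CaDiv A)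
    (h : Cl.map σ (Cl.mk E) = 0) :
    letI := Degree31.functionFieldAlgebra σ
    CaDiv.LinEquiv (Module.finrank A.functionField W.functionField • E) 0 := by
  rw [Cl.map_mk_of_isDominant, Cl.mk_eq_zero_iff, linEquiv_zero_iff] at h
  obtain ⟨u, hu⟩ := h
  refine Descent50.linEquiv_zero_of_pullback_principal' σ E u⁻¹ fun w => ?_
  have := hu w
  simp only [CaDiv.eq_principal] at this
  rw [mul_comm, ← div_eq_mul_inv]
  exact this

/-- **The cube relation on `A` from quadraticity on `W`.** -/
theorem cube_relation_of_map_eq [IsDominant σ] [UniversallyClosed σ]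
    [∀ x : A, IsIntegrallyClosed (A.presheaf.stalk x)]
    (hfd : letI := Degree31.functionFieldAlgebra σ
      FiniteDimensional A.functionField W.functionField)
    (ν : A ⟶ A) [IsDominant ν] (D : CaDiv A) (N : ℕ)
    (hQ : Cl.map (σ ≫ ν) (Cl.mk D) = (N ^ 2) • Cl.map σ (Cl.mk D)) :
    ∃ e : ℕ, 0 < e ∧ CaDiv.LinEquiv (e • Pull69.CaDiv.pull ν D) ((e * N ^ 2) • D) := by
  letI := Degree31.functionFieldAlgebra σ
  haveI := hfd
  refine ⟨Module.finrank A.functionField W.functionField, Module.finrank_pos, ?_⟩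
  have h0 : Cl.map σ (Cl.mk (Pull69.CaDiv.pull ν D - (N ^ 2) • D)) = 0 := by
    rw [map_sub, map_sub, map_nsmul, map_nsmul, ← Cl.map_mk_of_isDominant ν D,
      ← Cl.map_comp_apply, hQ, sub_self]
  have h1 := linEquiv_zero_of_map_eq_zero σ _ h0
  rw [smul_sub, smul_smul] at h1
  exact linEquiv_iff_sub.mpr h1

end Fermat.Agent.JAC.Final26.NormStep66
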