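/-
Programme JAC, S26 track, chapter Final26 (helper66).

**S26 from a covering package.**  Let `A` be an abelian variety of dimension `g` over an
algebraically closed field `K`.  Suppose `σ : W ⟶ A` is a dominant `K`-morphism from a proper
integral `K`-scheme with `K(W)/K(A)` finite, such that pull-back of symmetric divisor classes along
`σ ≫ [N]` is `N²` times pull-back along `σ` (the theorem of the cube on `W`, a product of
curves).  Then `#A[n](K) = n ^ (2 g)` for `n` invertible in `K`.

This is the form reused by S27 (with `W = C^g ⟶ J`).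
-/
import Mathlib
import Fermat.Agent.JAC.Final26.Main66
import Fermat.Agent.JAC.Final26.NormStep66
import Fermat.Agent.JAC.AV.Bridge66

set_option autoImplicit false

open CategoryTheory CategoryTheory.Limits AlgebraicGeometry NeronModelInfra GoodReductionJacobian

universe u

namespace Fermat.Agent.JAC.Final26.Package66

open Fermat.Agent.JAC.AV.TorsionCount66 Fermat.Agent.JAC.AV.Integral66
  Fermat.Agent.JAC.Fin Fermat.Agent.JAC.Div2 Fermat.Agent.JAC.Div2.CaDiv69
  Fermat.Agent.JAC.Div2.Cl1 Fermat.Agent.JAC.Final26.Main66 Fermat.Agent.JAC.Final26.NormStep66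

variable {K : Type u} [Field K] [IsAlgClosed K] {A : Scheme.{u}}
  {f : A ⟶ Spec (CommRingCat.of K)} (L : RelativeGroupLaw K f)
  (hc : L.IsCommutative) (hA : AbelianSchemePropertyBundle K f)

include hc hA in
/-- **S26 from a covering package**, `torsionCard` form. -/
theorem torsionCard_eq_pow_of_package (g : ℕ) [SmoothOfRelativeDimension g f] [IsIntegral A]
    {W : Scheme.{u}} [IsIntegral W] (w : W ⟶ Spec (CommRingCat.of K)) [IsProper w]
    (σ : W ⟶ A) (hσ : σ ≫ f = w) [IsDominant σ]
    (hfd : letI := Degree31.functionFieldAlgebra σ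
      FiniteDimensional A.functionField W.functionField)
    (hQN : ∀ δ : Cl A, Cl.map (Fermat.Agent.JAC.AV.Neg66.neg L) δ = δ → ∀ N : ℕ,
      Cl.map (σ ≫ L.schemeNsmul N) δ = (N ^ 2) • Cl.map σ δ)
    (n : ℕ) (hn : (n : K) ≠ 0) : torsionCard L n = n ^ (2 * g) := by
  haveI : IsProper f := hA.proper
  haveI : UniversallyClosed (σ ≫ f) := by rw [hσ]; infer_instance
  haveI : UniversallyClosed σ := UniversallyClosed.of_comp_of_isSeparated σ f
  haveI : ∀ y : A, IsIntegrallyClosed (A.presheaf.stalk y) :=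
    fun y => isIntegrallyClosed_stalk_of_bundle f hA y
  refine torsionCard_eq_pow_of_cube_symm L hc hA g (fun D _ hsym N _ _ => ?_) n hn
  refine cube_relation_of_map_eq σ hfd (L.schemeNsmul N) D N (hQN (Cl.mk D) ?_ N)
  rw [Cl.map_mk_of_isDominant, hsym]

include hc hA in
/-- **S26 from a covering package**, frozen-count form. -/
theorem natCard_isTorsionPoint_eq_pow_of_package (g : ℕ) [SmoothOfRelativeDimension g f]
    {W : Scheme.{u}} [IsIntegral W] (w : W ⟶ Spec (CommRingCat.of K)) [IsProper w]
    (σ : W ⟶ A) (hσ : σ ≫ f = w)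
    (hpkg : ∀ [IsIntegral A], ∃ _ : IsDominant σ,
      (letI := Degree31.functionFieldAlgebra σ
       FiniteDimensional A.functionField W.functionField) ∧
      ∀ δ : Cl A, Cl.map (Fermat.Agent.JAC.AV.Neg66.neg L) δ = δ → ∀ N : ℕ,
        Cl.map (σ ≫ L.schemeNsmul N) δ = (N ^ 2) • Cl.map σ δ)
    (n : ℕ) (hn : (n : K) ≠ 0) :
    Nat.card {x : SchemeHomOver (𝟙 (Spec (CommRingCat.of K))) f //
        L.IsTorsionPoint (𝟙 (Spec (CommRingCat.of K))) n x} = n ^ (2 * g) := by
  haveI := isIntegral_of_bundle f hA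
  obtain ⟨hdom, hfd, hQN⟩ := hpkg
  rw [Fermat.Agent.JAC.AV.Bridge66.card_isTorsionPoint_eq]
  exact torsionCard_eq_pow_of_package L hc hA g w σ hσ hfd hQN n hn

end Fermat.Agent.JAC.Final26.Package66
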