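/-
Programme JAC, S26 track, chapter Final26 (helper66).

**Final wiring of S26**: the frozen S26 statement from three named statements

* `S25Statement K` (helper6's `Nice6.S25Statement`: the frozen S25 conclusion for all curves over `K`),
* `PackageStatement K` (CURVES: a dominant pointed morphism from a product of pointed curves with
  Jacobians onto the abelian variety, with finite function field extension),
* `QuadraticStatement K` (CUBE_W: quadraticity of `N ↦ (σ ≫ [N])^* δ` for symmetric classes).
-/
import Mathlib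
import Fermat.Agent.JAC.Final26.Package66
import Fermat.Agent.JAC.Cube.Nice6
import Fermat.Agent.JAC.AV.DimZero66

set_option autoImplicit false

open CategoryTheory CategoryTheory.Limits AlgebraicGeometry NeronModelInfra GoodReductionJacobian

universe u

namespace Fermat.Agent.JAC.Final26.Skeleton66

open Fermat.Agent.JAC.Cube.Induct6 Fermat.Agent.JAC.Cube.Nice6
  Fermat.Agent.JAC.Fin Fermat.Agent.JAC.Div2 Fermat.Agent.JAC.Div2.Cl1
  Fermat.Agent.JAC.Final26.Package66

/-- CURVES: existence of a covering package. -/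
def PackageStatement (K : Type u) [Field K] [IsAlgClosed K] : Prop :=
  ∀ {A : Scheme.{u}} (f : A ⟶ Spec (CommRingCat.of K)) (L : RelativeGroupLaw K f)
    (_ : L.IsCommutative) (_ : AbelianSchemePropertyBundle K f) (g : ℕ)
    [SmoothOfRelativeDimension g f] [IsIntegral A],
    ∃ (l : List (PointedJac (niceClass K))) (σ : (prodObj l).left ⟶ A),
      σ ≫ f = (prodObj l).hom ∧ (prodPt l).left ≫ σ = (L.one (𝟙 (Spec (CommRingCat.of K)))).1 ∧
      ∃ _ : IsDominant σ,
        haveI : IsIntegral (prodObj l).left := (nice_prodObj l).1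
        letI := Degree31.functionFieldAlgebra σ
        FiniteDimensional A.functionField (prodObj l).left.functionField

/-- CUBE_W: quadraticity on products of pointed curves with Jacobians. -/
def QuadraticStatement (K : Type u) [Field K] [IsAlgClosed K] : Prop :=
  ∀ {A : Scheme.{u}} (f : A ⟶ Spec (CommRingCat.of K)) (L : RelativeGroupLaw K f)
    (_ : L.IsCommutative) [IsIntegral A]
    (l : List (PointedJac (niceClass K))) (σ : (prodObj l).left ⟶ A),
    σ ≫ f = (prodObj l).hom → (prodPt l).left ≫ σ = (L.one (𝟙 (Spec (CommRingCat.of K)))).1 →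
    haveI : IsIntegral (prodObj l).left := (nice_prodObj l).1
    ∀ δ : Cl A, Cl.map (Fermat.Agent.JAC.AV.Neg66.neg L) δ = δ → ∀ N : ℕ,
      Cl.map (σ ≫ L.schemeNsmul N) δ = (N ^ 2) • Cl.map σ δ

/-- **The frozen S26 statement from the three statements.** -/
theorem s26_of_statements (K : Type u) [Field K] [IsAlgClosed K]
    (hpkg : PackageStatement K) (hquad : QuadraticStatement K)
    {A : Scheme.{u}} (f : A ⟶ Spec (CommRingCat.of K))
    (L : RelativeGroupLaw K f) (hc : L.IsCommutative) (hA : AbelianSchemePropertyBundle K f)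
    (g : ℕ) [SmoothOfRelativeDimension g f] (n : ℕ) (hn : (n : K) ≠ 0) :
    Nat.card {x : SchemeHomOver (𝟙 (Spec (CommRingCat.of K))) f //
        L.IsTorsionPoint (𝟙 (Spec (CommRingCat.of K))) n x} = n ^ (2 * g) := by
  haveI hint := Fermat.Agent.JAC.AV.Integral66.isIntegral_of_bundle f hA
  obtain ⟨l, σ, hσ, hpt, hdom, hfd⟩ := hpkg f L hc hA g
  haveI : IsIntegral (prodObj l).left := (nice_prodObj l).1
  haveI : IsProper (prodObj l).hom := (nice_prodObj l).2
  refine natCard_isTorsionPoint_eq_pow_of_package L hc hA g (prodObj l).hom σ hσ ?_ n hn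
  intro _
  exact ⟨hdom, hfd, hquad f L hc l σ hσ hpt⟩

/-- **The case `g = 0`** of the frozen S26 statement: `A` is a point. -/
theorem s26_dim_zero (K : Type u) [Field K] [IsAlgClosed K]
    {A : Scheme.{u}} (f : A ⟶ Spec (CommRingCat.of K))
    (L : RelativeGroupLaw K f) (hc : L.IsCommutative) (hA : AbelianSchemePropertyBundle K f)
    [SmoothOfRelativeDimension 0 f] (n : ℕ) (hn : (n : K) ≠ 0) :
    Nat.card {x : SchemeHomOver (𝟙 (Spec (CommRingCat.of K))) f //
        L.IsTorsionPoint (𝟙 (Spec (CommRingCat.of K))) n x} = n ^ (2 * 0) := by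
  haveI hint := Fermat.Agent.JAC.AV.Integral66.isIntegral_of_bundle f hA
  haveI : Etale f := (Etale.iff_smoothOfRelativeDimension_zero f).mpr inferInstance
  haveI : Subsingleton A := Fermat.Agent.JAC.AV.DimZero66.subsingleton_of_etale f
  rw [Fermat.Agent.JAC.AV.Bridge66.card_isTorsionPoint_eq]
  refine Fermat.Agent.JAC.Final26.Main66.torsionCard_eq_pow_of_cube_symm L hc hA 0
    (fun D _ _ N _ _ => ⟨1, one_pos, ?_⟩) n hn
  exact (Cl.linEquiv_zero_of_subsingleton _).trans (Cl.linEquiv_zero_of_subsingleton _).symm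

/-- CURVES, positive-dimensional form. -/
def PackageStatementPos (K : Type u) [Field K] [IsAlgClosed K] : Prop :=
  ∀ {A : Scheme.{u}} (f : A ⟶ Spec (CommRingCat.of K)) (L : RelativeGroupLaw K f)
    (_ : L.IsCommutative) (_ : AbelianSchemePropertyBundle K f) (g : ℕ) (_ : 0 < g)
    [SmoothOfRelativeDimension g f] [IsIntegral A],
    ∃ (l : List (PointedJac (niceClass K))) (σ : (prodObj l).left ⟶ A),
      σ ≫ f = (prodObj l).hom ∧ (prodPt l).left ≫ σ = (L.one (𝟙 (Spec (CommRingCat.of K)))).1 ∧
      ∃ _ : IsDominant σ,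
        haveI : IsIntegral (prodObj l).left := (nice_prodObj l).1
        letI := Degree31.functionFieldAlgebra σ
        FiniteDimensional A.functionField (prodObj l).left.functionField

/-- **The frozen S26 statement** from the positive-dimensional package statement and the
quadratic statement. -/
theorem s26_of_statements_pos (K : Type u) [Field K] [IsAlgClosed K]
    (hpkg : PackageStatementPos K) (hquad : QuadraticStatement K)
    {A : Scheme.{u}} (f : A ⟶ Spec (CommRingCat.of K))
    (L : RelativeGroupLaw K f) (hc : L.IsCommutative) (hA : AbelianSchemePropertyBundle K f)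
    (g : ℕ) [SmoothOfRelativeDimension g f] (n : ℕ) (hn : (n : K) ≠ 0) :
    Nat.card {x : SchemeHomOver (𝟙 (Spec (CommRingCat.of K))) f //
        L.IsTorsionPoint (𝟙 (Spec (CommRingCat.of K))) n x} = n ^ (2 * g) := by
  rcases Nat.eq_zero_or_pos g with h0 | hg
  · subst h0
    exact s26_dim_zero K f L hc hA n hn
  haveI hint := Fermat.Agent.JAC.AV.Integral66.isIntegral_of_bundle f hA
  obtain ⟨l, σ, hσ, hpt, hdom, hfd⟩ := hpkg f L hc hA g hg
  haveI : IsIntegral (prodObj l).left := (nice_prodObj l).1
  haveI : IsProper (prodObj l).hom := (nice_prodObj l).2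
  refine natCard_isTorsionPoint_eq_pow_of_package L hc hA g (prodObj l).hom σ hσ ?_ n hn
  intro _
  exact ⟨hdom, hfd, hquad f L hc l σ hσ hpt⟩

end Fermat.Agent.JAC.Final26.Skeleton66
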