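/-
Programme JAC, S26 track, chapter Final26 (helper66).

Arithmetic assembly: from the volume growth of `a k = dim L(kD)`, the sandwich for `[N]^* D`
and the cube relation `e [N]^* D ~ e N² D` one gets `d n = n ^ (2 g)` (via helper63's ARITH).
-/
import Mathlib
import Fermat.Agent.JAC.Vol.Arith63

set_option autoImplicit false

namespace Fermat.Agent.JAC.Final26.Assemble66

open Fermat.Agent.JAC.Vol

/-- **Assembly.**  `a k = dim L(kD)`, `b N k = dim L(k [N]^* D)`, `d N = deg [N]`. -/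
theorem eq_pow_of_bricks {a : ℕ → ℕ} {g : ℕ} {c C : ℝ} {k0 : ℕ} (hc : 0 < c) (hC : 0 < C)
    (hlow : ∀ k, k0 ≤ k → c * (k : ℝ) ^ g ≤ a k)
    (hup : ∀ k, k0 ≤ k → (a k : ℝ) ≤ C * (k : ℝ) ^ g)
    (d : ℕ → ℕ) (b : ℕ → ℕ → ℕ) (S : ℕ → Prop) {n : ℕ} (hn : 0 < n)
    (hSpow : ∀ j : ℕ, S (n ^ j))
    (hmul : ∀ j : ℕ, d (n ^ j) = d n ^ j)
    (hsand : ∀ N, S N → ∃ m : ℕ, ∀ k, m ≤ k →
      d N * a (k - m) ≤ b N k ∧ b N k ≤ d N * a (k + m))
    (hcube : ∀ N, S N → ∃ e : ℕ, 0 < e ∧ ∀ k, b N (e * k) = a (e * N ^ 2 * k)) :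
    d n = n ^ (2 * g) := by
  refine Arith63.eq_pow_of_sandwich hc hC hlow hup d hn hmul ?_
  intro j
  obtain ⟨m, hm⟩ := hsand (n ^ j) (hSpow j)
  obtain ⟨e, he, hb⟩ := hcube (n ^ j) (hSpow j)
  refine ⟨e, m, m, he, fun k hk => ?_⟩
  have hek : m ≤ e * k := le_trans hk (Nat.le_mul_of_pos_left k he)
  have h := hm (e * k) hek
  rw [hb k] at h
  exact h

end Fermat.Agent.JAC.Final26.Assemble66
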