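/-
Programme JAC, S26 track, chapter Final26 (helper66).

**(QN) closed**: `Skeleton66.QuadraticStatement K` holds for every algebraically closed field `K`
(helper1's `Cube/QuadraticCl1.map_comp_schemeNsmul_eq`, on top of the theorem of the cube for
divisor classes `ClCubeFinal1.cl_cube`, `Nice6.cubeGood_curves`, `Quadratic6`).  Consequently the
frozen S26 statement follows from the package statement alone.
-/
import Mathlib
import Fermat.Agent.JAC.Final26.Skeleton66
import Fermat.Agent.JAC.Cube.QuadraticCl1

set_option autoImplicit false

open CategoryTheory CategoryTheory.Limits AlgebraicGeometry NeronModelInfra GoodReductionJacobian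

universe u

namespace Fermat.Agent.JAC.Final26.Quadratic66

open Fermat.Agent.JAC.Cube.Induct6 Fermat.Agent.JAC.Cube.Nice6
  Fermat.Agent.JAC.Final26.Skeleton66

/-- **(QN)**: the quadratic statement. -/
theorem quadraticStatement (K : Type u) [Field K] [IsAlgClosed K] : QuadraticStatement K := by
  intro A f L hc _ l σ hσ hpt
  intro δ hδ N
  haveI : IsIntegral (prodObj l).left := (nice_prodObj l).1
  exact Fermat.Agent.JAC.Cube.QuadraticCl1.map_comp_schemeNsmul_eq hc l σ hσ hpt δ hδ N

/-- **The frozen S26 statement from the positive-dimensional package statement alone.** -/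
theorem s26_of_package (K : Type u) [Field K] [IsAlgClosed K]
    (hpkg : PackageStatementPos K)
    {A : Scheme.{u}} (f : A ⟶ Spec (CommRingCat.of K))
    (L : RelativeGroupLaw K f) (hc : L.IsCommutative) (hA : AbelianSchemePropertyBundle K f)
    (g : ℕ) [SmoothOfRelativeDimension g f] (n : ℕ) (hn : (n : K) ≠ 0) :
    Nat.card {x : SchemeHomOver (𝟙 (Spec (CommRingCat.of K))) f //
        L.IsTorsionPoint (𝟙 (Spec (CommRingCat.of K))) n x} = n ^ (2 * g) :=
  s26_of_statements_pos K hpkg (quadraticStatement K) f L hc hA g n hn

end Fermat.Agent.JAC.Final26.Quadratic66
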