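/-
Programme JAC, S26 track, chapter Final26 (helper66).

**S26 from S25, end to end.**  The frozen S26 statement, with the frozen S25 conclusion (for all
pointed smooth proper integral curves over `K`) as its single hypothesis.  Everything else
(CURVES package `Curves/Package64`, quadraticity `Final26/Quadratic66`, the volume count and the
arithmetic `Final26/Package66`) is proved.
-/
import Mathlib
import Fermat.Agent.JAC.Final26.Quadratic66
import Fermat.Agent.JAC.Curves.Package64

set_option autoImplicit false

open CategoryTheory CategoryTheory.Limits AlgebraicGeometry NeronModelInfra GoodReductionJacobian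

universe u

namespace Fermat.Agent.JAC.Final26.Final66

open Fermat.Agent.JAC.Cube.Nice6

/-- **S26 from S25**: for an algebraically closed field `K` over which every pointed smooth proper
integral curve has a Jacobian (`S25Statement K`, the frozen S25 conclusion), an abelian scheme of
relative dimension `g` over `K` has exactly `n ^ (2 * g)` points of order dividing `n`, for `n`
invertible in `K`. -/
theorem s26_of_s25 (K : Type u) [Field K] [IsAlgClosed K] (h25 : S25Statement K)
    {A : Scheme.{u}} (f : A ⟶ Spec (CommRingCat.of K))
    (L : RelativeGroupLaw K f) (hc : L.IsCommutative) (hA : AbelianSchemePropertyBundle K f)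
    (g : ℕ) [SmoothOfRelativeDimension g f] (n : ℕ) (hn : (n : K) ≠ 0) :
    Nat.card {x : SchemeHomOver (𝟙 (Spec (CommRingCat.of K))) f //
        L.IsTorsionPoint (𝟙 (Spec (CommRingCat.of K))) n x} = n ^ (2 * g) :=
  Fermat.Agent.JAC.Final26.Quadratic66.s26_of_package K
    (Fermat.Agent.JAC.Curves.Package64.packageStatementPos K h25) f L hc hA g n hn

end Fermat.Agent.JAC.Final26.Final66
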