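/-
S26-track, brick (QN) (helper1), final form: helper66's `Skeleton66.QuadraticStatement K` holds
for every algebraically closed field `K` (from `Cube/QuadraticCl1.map_comp_schemeNsmul_eq`).
-/
import Fermat.Agent.JAC.Final26.Skeleton66
import Fermat.Agent.JAC.Cube.QuadraticCl1

set_option autoImplicit false

universe u

open CategoryTheory CategoryTheory.Limits AlgebraicGeometry NeronModelInfra GoodReductionJacobian

namespace Fermat.Agent.JAC.Final26.Quadratic1

open Fermat.Agent.JAC.Cube.Induct6 Fermat.Agent.JAC.Cube.Nice6

/-- **CUBE_W, final form**: quadraticity of `N ↦ (σ ≫ [N])^* δ` for symmetric classes `δ` on a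
commutative group scheme `A / K` and pointed morphisms `σ` from a product of pointed curves with
Jacobians. -/
theorem quadraticStatement (K : Type u) [Field K] [IsAlgClosed K] :
    Fermat.Agent.JAC.Final26.Skeleton66.QuadraticStatement K := by
  intro A f L hc _ l σ hσ hpt δ hδ N
  have : IsIntegral (prodObj l).left := (nice_prodObj l).1
  exact Fermat.Agent.JAC.Cube.QuadraticCl1.map_comp_schemeNsmul_eq hc l σ hσ hpt δ hδ N

end Fermat.Agent.JAC.Final26.Quadratic1
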