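/-
JAC / S26 track (helper64): the final wire.  The frozen S26 statement from the frozen S25 statement
(as a hypothesis, in its literal frozen shape), via `Curves/Package64.packageStatementPos` and
`Final26/Quadratic66.s26_of_package`.  With this, `Fermat/Agent/S26.lean` is the one-liner
`s26_of_s25 K (fun c _ _ _ ε => Fermat.Agent.S25.result K c ε) f L hc hA g n hn`
(checked against the frozen types of S25 and S26).
-/
import Mathlib
import Fermat.Agent.JAC.Final26.Quadratic66
import Fermat.Agent.JAC.Curves.Package64

set_option autoImplicit false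

open CategoryTheory CategoryTheory.Limits AlgebraicGeometry NeronModelInfra GoodReductionJacobian
open AlgebraicGeometry.RelPicard

universe u

namespace Fermat.Agent.JAC.Final26.Wire64

/-- **S26 from S25** (both in their frozen shapes). -/
theorem s26_of_s25 (K : Type u) [Field K] [IsAlgClosed K]
    (h25 : ∀ {C : Scheme.{u}} (c : C ⟶ Spec (CommRingCat.of K))
      [IsProper c] [SmoothOfRelativeDimension 1 c] [IsIntegral C]
      (ε : SchemeHomOver (𝟙 (Spec (CommRingCat.of K))) c),
      ∃ D : RelativePic0Designation K c,
        Nonempty (RepresentsRelSubPic c ε (algEquivZeroCut c ε) D) ∧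
          Smooth D.toBase ∧ IsProper D.toBase ∧ GeometricallyConnected D.toBase)
    {A : Scheme.{u}} (f : A ⟶ Spec (CommRingCat.of K))
    (L : RelativeGroupLaw K f) (hc : L.IsCommutative) (hA : AbelianSchemePropertyBundle K f)
    (g : ℕ) [SmoothOfRelativeDimension g f] (n : ℕ) (hn : (n : K) ≠ 0) :
    Nat.card {x : SchemeHomOver (𝟙 (Spec (CommRingCat.of K))) f //
        L.IsTorsionPoint (𝟙 (Spec (CommRingCat.of K))) n x} = n ^ (2 * g) :=
  Fermat.Agent.JAC.Final26.Quadratic66.s26_of_package K
    (Fermat.Agent.JAC.Curves.Package64.packageStatementPos K h25) f L hc hA g n hn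

end Fermat.Agent.JAC.Final26.Wire64
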